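/-
P-CFT / RECIP-Q (sub-lead helper25): THE RECIPROCITY LAW FOR THE `p`-TORSION OF `Br(ℚ)`
in the currency of the canonical local invariant `HasInv` (helper78 `LocalInv`), and its
leaves.  INTERFACES ONLY (definitions + Prop-statements).

Target `RecipQStatement`: a level 2-cocycle `c` of `G_ℚ` with values in `ℚ̄ˣ` whose `p`-th
power is a level coboundary, with local invariants `j_q / p` at the primes `q` of a finite set
`T` and locally trivial outside `T`, satisfies `p ∣ ∑_{q ∈ T} j_q`.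

Route (tame, cyclotomic, `p`-torsion only): auxiliary prime `ℓ ≡ 1 (p)` for which every
`q ∈ T` is a non-`p`-th-power; `M = fieldM ℓ p` the subfield of degree `p` of `ℚ(ζ_ℓ)`;
Hasse principle ⟹ `res_M c ~ 1` ⟹ `c ~ infl (stdCocycle σ a)`, `a ∈ ℚˣ`; local computation
at `v ≠ ℓ` (unramified) and at `ℓ` (tame); final arithmetic.
-/
import Fermat.Agent.H78.CFT.LocalInvRows

set_option autoImplicit false
set_option synthInstance.maxHeartbeats 400000

namespace Fermat.Agent.H25.Recip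

open Fermat.Agent.H13.Cft Fermat.Agent.H78.CFT Fermat.Agent.H81.Local
open Fermat.Agent.H49.Unram Fermat.Agent.H61.CFT ExtCitation

/-! ### Basic objects -/

/-- `ℚ` inside `ℚ̄` (the bottom intermediate field); `G_ℚ = Q0.fixingSubgroup`. -/
noncomputable abbrev Q0 : IntermediateField ℚ Qb := ⊥

/-- The inclusion `Eˣ → Fˣ` in the shape used by `CyclicNormStatement`. -/
noncomputable abbrev uMap (E : IntermediateField ℚ Qb) (F : IntermediateField E Qb) : Eˣ →* Fˣ :=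
  Units.map ((algebraMap E F : E →+* F) : E →* F)

/-- The elements of `G_ℚ` acting on `μ_ℓ` through `p`-th powers of `(ℤ/ℓ)ˣ`. -/
noncomputable def powKer (ℓ p : ℕ) [Fact ℓ.Prime] : Subgroup (Qb ≃ₐ[ℚ] Qb) :=
  (powMonoidHom p : (ZMod ℓ)ˣ →* (ZMod ℓ)ˣ).range.comap (cycloChar ℓ)

/-- `M = ℚ̄^{powKer}`: for `p ∣ ℓ - 1` the subfield of degree `p` of `ℚ(ζ_ℓ)`. -/
noncomputable def fieldM (ℓ p : ℕ) [Fact ℓ.Prime] : IntermediateField ℚ Qb :=
  IntermediateField.fixedField (powKer ℓ p)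

/-- `M` as an extension of `Q0` (tower currency). -/
noncomputable def fieldM0 (ℓ p : ℕ) [Fact ℓ.Prime] : IntermediateField Q0 Qb :=
  IntermediateField.extendScalars (bot_le : Q0 ≤ fieldM ℓ p)

/-- The composite `M · K_v` as an extension of `K_v = localField v` (tower currency). -/
noncomputable def fieldMLoc (ℓ p v : ℕ) [Fact ℓ.Prime] [Fact v.Prime] :
    IntermediateField (localField v) Qb :=
  IntermediateField.extendScalars (le_sup_right : localField v ≤ fieldM ℓ p ⊔ localField v)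

/-- The class of the integer `n` in `(ℤ/ℓ)ˣ` (`1` if `ℓ ∣ n`). -/
noncomputable def unitMod (ℓ : ℕ) (n : ℤ) : (ZMod ℓ)ˣ :=
  open Classical in if h : IsUnit (n : ZMod ℓ) then h.unit else 1

/-- `x ∈ ℚ̄` is congruent to a `p`-th power of an integer modulo the maximal ideal of the
`ℓ`-adic valuation. -/
def IsPowResQ (ℓ p : ℕ) [Fact ℓ.Prime] (x : Qb) : Prop :=
  ∃ b : ℤ, qVal ℓ (x - (b : Qb) ^ p) < 1

/-! ### The target -/

/-- **[RECIP-Q]** the reciprocity law for the `p`-torsion of `Br(ℚ)`: the sum of the local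
invariants vanishes. -/
def RecipQStatement : Prop :=
  ∀ (p : ℕ) [Fact p.Prime], p ≠ 2 →
    ∀ c : Q0.fixingSubgroup × Q0.fixingSubgroup → Qbˣ, IsLvlFun₂ (lvlE Q0) c →
      IsMulCocycle₂E Q0 c → IsLvlMulCoboundary₂E Q0 (fun x => c x ^ p) →
      ∀ (T : Finset ℕ) (j : ℕ → ℤ), (∀ q ∈ T, q.Prime) →
        (∀ (q : ℕ) [Fact q.Prime], q ∉ T →
          IsLvlMulCoboundary₂E (localField q) (resCochain₂ bot_le c)) →
        (∀ (q : ℕ) [Fact q.Prime], q ∈ T →
          HasInv q (localField q) (resCochain₂ bot_le c) (j q) p) →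
        (p : ℤ) ∣ ∑ q ∈ T, j q

/-! ### The Hasse principle (block [HASSE], helper97), consumer shape -/

/-- **[HASSE-Q]** a `p`-torsion class of `Br(ℚ)` whose restriction to a finite Galois `M / ℚ` is
trivial at the place of `M` cut out by `localField q`, for every prime `q`, is trivial on
`G_M`. -/
def HasseQStatement : Prop :=
  ∀ (p : ℕ) [Fact p.Prime], p ≠ 2 →
    ∀ c : Q0.fixingSubgroup × Q0.fixingSubgroup → Qbˣ, IsLvlFun₂ (lvlE Q0) c →
      IsMulCocycle₂E Q0 c → IsLvlMulCoboundary₂E Q0 (fun x => c x ^ p) →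
      ∀ M : IntermediateField ℚ Qb, FiniteDimensional ℚ M → IsGalois ℚ M →
        (∀ (q : ℕ) [Fact q.Prime],
          IsLvlMulCoboundary₂E (M ⊔ localField q) (resCochain₂ bot_le c)) →
        IsLvlMulCoboundary₂E M (resCochain₂ bot_le c)

/-! ### Cohomological leaves (no arithmetic) -/

/-- **[RQ-GEN]** change of generator for the standard cocycle of a cyclic group:
`stdCocycle g a ~ stdCocycle (g ^ k) (a ^ k)` for `a` invariant. -/
def ChangeGenStatement : Prop :=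
  ∀ (G M : Type) [Group G] [CommGroup M] [MulDistribMulAction G M] (g : G), IsGen g →
    ∀ k : ℕ, IsGen (g ^ k) → ∀ a : M, g • a = a →
      groupCohomology.IsMulCoboundary₂
        (fun x : G × G => stdCocycle g a x / stdCocycle (g ^ k) (a ^ k) x)

/-- **[RQ-SPLIT]** a level 2-cocycle of `G_E` which dies on `G_F`, `F / E` finite cyclic with
generator `σ`, is cohomologous to the inflation of `stdCocycle σ a` for some `a ∈ Eˣ`
(`Lvl2Finite` + `Inf2Lvl` + inflation-restriction + cyclic normal form). -/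
def SplitCyclicStatement : Prop :=
  ∀ (E : IntermediateField ℚ Qb) (F : IntermediateField E Qb) [FiniteDimensional E F]
    [IsGalois E F] (σ : F ≃ₐ[E] F), (∀ τ : F ≃ₐ[E] F, τ ∈ Subgroup.zpowers σ) →
    ∀ c : E.fixingSubgroup × E.fixingSubgroup → Qbˣ, IsLvlFun₂ (lvlE E) c →
      IsMulCocycle₂E E c →
      ∀ (F₁ : IntermediateField ℚ Qb) (h : E ≤ F₁), F.restrictScalars ℚ = F₁ →
        IsLvlMulCoboundary₂E F₁ (resCochain₂ h c) →
        ∃ a : Eˣ, IsLvlMulCoboundary₂E E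
          (fun x => c x / inflE E F (stdCocycle σ (uMap E F a)) x)

/-- **[RQ-BC]** base change of the inflated standard cocycle, non-split case: if
`F' = F · E'` has the same degree over `E'` as `F` over `E`, there is a generator `σ'` of
`Gal(F'/E')` lifting `σ`, and the restriction of `infl (stdCocycle σ a)` to `G_{E'}` is
`infl (stdCocycle σ' a)`. -/
def BaseChangeStatement : Prop :=
  ∀ (E E' : IntermediateField ℚ Qb) (h : E ≤ E') (F : IntermediateField E Qb)
    [FiniteDimensional E F] [IsGalois E F] (F' : IntermediateField E' Qb)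
    [FiniteDimensional E' F'] [IsGalois E' F'],
    F'.restrictScalars ℚ = F.restrictScalars ℚ ⊔ E' →
    Module.finrank E' F' = Module.finrank E F →
    ∀ σ : F ≃ₐ[E] F, (∀ τ : F ≃ₐ[E] F, τ ∈ Subgroup.zpowers σ) →
      ∃ σ' : F' ≃ₐ[E'] F', (∀ τ : F' ≃ₐ[E'] F', τ ∈ Subgroup.zpowers σ') ∧
        (∀ (g : E'.fixingSubgroup) (i : ℕ),
          resEF E F (Subgroup.inclusion (IntermediateField.fixingSubgroup_le h) g) = σ ^ i →
            resEF E' F' g = σ' ^ i) ∧
        ∀ (a : Eˣ) (a' : E'ˣ), ((a' : E') : Qb) = ((a : E) : Qb) →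
          resCochain₂ h (inflE E F (stdCocycle σ (uMap E F a))) =
            inflE E' F' (stdCocycle σ' (uMap E' F' a'))

/-- **[RQ-BC0]** base change, split case: if `F ≤ E'` the restriction of
`infl (stdCocycle σ a)` to `G_{E'}` is identically `1`. -/
def BaseChangeSplitStatement : Prop :=
  ∀ (E E' : IntermediateField ℚ Qb) (h : E ≤ E') (F : IntermediateField E Qb)
    [FiniteDimensional E F] [IsGalois E F], F.restrictScalars ℚ ≤ E' →
    ∀ (σ : F ≃ₐ[E] F) (a : Fˣ) (x : E'.fixingSubgroup × E'.fixingSubgroup),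
      resCochain₂ h (inflE E F (stdCocycle σ a)) x = 1

/-! ### The field `M` -/

/-- **[RQ-FIELD]** for primes `p ∣ ℓ - 1` the field `M = fieldM ℓ p` is cyclic of degree `p`
over `ℚ`, with Galois group `(ℤ/ℓ)ˣ / p`-th powers through the cyclotomic character: for every
surjective `κ : (ℤ/ℓ)ˣ → ℤ/p` there is a generator `σ` with `g|_M = σ ^ κ(cycloChar ℓ g)`. -/
def FieldMStatement : Prop :=
  ∀ (p ℓ : ℕ) [Fact p.Prime] [Fact ℓ.Prime], p ∣ ℓ - 1 →
    FiniteDimensional ℚ (fieldM ℓ p) ∧ IsGalois ℚ (fieldM ℓ p) ∧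
    ∃ (_ : FiniteDimensional Q0 (fieldM0 ℓ p)) (_ : IsGalois Q0 (fieldM0 ℓ p)),
      Module.finrank Q0 (fieldM0 ℓ p) = p ∧
      ∀ κ : (ZMod ℓ)ˣ →* Multiplicative (ZMod p), Function.Surjective κ →
        ∃ σ : fieldM0 ℓ p ≃ₐ[Q0] fieldM0 ℓ p,
          (∀ τ : fieldM0 ℓ p ≃ₐ[Q0] fieldM0 ℓ p, τ ∈ Subgroup.zpowers σ) ∧ orderOf σ = p ∧
          ∀ g : Q0.fixingSubgroup,
            resEF Q0 (fieldM0 ℓ p) g =
              σ ^ (Multiplicative.toAdd (κ (cycloChar ℓ (g : Qb ≃ₐ[ℚ] Qb)))).val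

/-- **[RQ-UNR]** `M` at a prime `v ≠ ℓ`: the decomposition group acts on `μ_ℓ` through powers
of `v`; a lift of the Frobenius of `unramExt v K_v p` acts on `μ_ℓ` as `v` times a `p`-th power;
`M ≤ K_v` if `v` is
a `p`-th power mod `ℓ`, and `M · K_v` is the unramified extension of degree `p` of `K_v`
otherwise. -/
def FieldMUnramStatement : Prop :=
  ∀ (p ℓ v : ℕ) [Fact p.Prime] [Fact ℓ.Prime] [Fact v.Prime], p ∣ ℓ - 1 → v ≠ ℓ →
    (∀ g : (localField v).fixingSubgroup,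
      ∃ n : ℕ, cycloChar ℓ (g : Qb ≃ₐ[ℚ] Qb) = unitMod ℓ v ^ n) ∧
    (∀ φ : unramExt v (localField v) p ≃ₐ[localField v] unramExt v (localField v) p,
      IsFrobE v (localField v) p φ → ∀ g : (localField v).fixingSubgroup,
        resEF (localField v) (unramExt v (localField v) p) g = φ →
        ∃ u : (ZMod ℓ)ˣ, cycloChar ℓ (g : Qb ≃ₐ[ℚ] Qb) = unitMod ℓ v * u ^ p) ∧
    ((∃ u : (ZMod ℓ)ˣ, unitMod ℓ v = u ^ p) → fieldM ℓ p ≤ localField v) ∧
    ((¬ ∃ u : (ZMod ℓ)ˣ, unitMod ℓ v = u ^ p) →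
      fieldM ℓ p ⊔ localField v = (unramExt v (localField v) p).restrictScalars ℚ)

/-- **[RQ-TAME]** `M` at `ℓ`: `M · K_ℓ / K_ℓ` has degree `p` (totally and tamely ramified), and
an element `a ∈ K_ℓˣ` of valuation `e` which is a norm from `M · K_ℓ` is, up to `ℓ ^ e`, a
`p`-th power residue mod `ℓ`. -/
def FieldMTameStatement : Prop :=
  ∀ (p ℓ : ℕ) [Fact p.Prime] [Fact ℓ.Prime], p ≠ 2 → p ∣ ℓ - 1 →
    ∃ (_ : FiniteDimensional (localField ℓ) (fieldMLoc ℓ p ℓ))
      (_ : IsGalois (localField ℓ) (fieldMLoc ℓ p ℓ)),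
      Module.finrank (localField ℓ) (fieldMLoc ℓ p ℓ) = p ∧
      ∀ (a : localField ℓ) (e : ℤ), qVal ℓ (a : Qb) = qVal ℓ (ℓ : Qb) ^ e →
        (∃ y : fieldMLoc ℓ p ℓ, Algebra.norm (localField ℓ) y = a) →
        IsPowResQ ℓ p ((a : Qb) * ((ℓ : Qb) ^ e)⁻¹)

/-! ### The auxiliary prime and the final arithmetic (helper25) -/

/-- **[RQ-AUX]** the auxiliary prime: for a finite set `T` of primes there is a prime
`ℓ ≡ 1 (p)`, `ℓ ∉ T`, such that no `q ∈ T` is a `p`-th power mod `ℓ`. -/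
def AuxPrimeStatement : Prop :=
  ∀ (p : ℕ) [Fact p.Prime], p ≠ 2 → ∀ T : Finset ℕ, (∀ q ∈ T, q.Prime) →
    ∃ ℓ : ℕ, ℓ.Prime ∧ p ∣ ℓ - 1 ∧ ℓ ∉ T ∧ ℓ ≠ p ∧
      ∀ q ∈ T, ¬ ∃ u : (ZMod ℓ)ˣ, unitMod ℓ q = u ^ p

end Fermat.Agent.H25.Recip
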