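/-
P-CFT / RECIP-Q (sub-lead helper25): FROM THE RECIPROCITY LAW TO THE TRACE `[TR]`.
Definitions (dictionary FRAME ↔ LOCAL currency) and the Prop-statements of the leaves `TR-*`.

FRAME side (helper13): local cochains are functions `(Fin 2 → Γ_q) → ZMod p`,
`Γ_q = primeLocalGaloisGroup q`, coefficients `Rep.res (primeLocalToGlobal q) (muRep χ)`,
`χ = cycloChar p`; global cochains are functions `(Fin 2 → G_ℚ) → ZMod p`.
LOCAL side (helper78): multiplicative cochains `G_E × G_E → ℚ̄ˣ`, `E = localField q` resp.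
`E = Q0 = ⊥`.  The dictionary is `a ↦ zetaPow ζ (locCoch q a)` resp. `x ↦ zetaPow ζ (globCoch x)`
for a fixed primitive `p`-th root of unity `ζ`.
-/
import Fermat.Agent.H25.Recip.Interfaces
import Fermat.Agent.H13.Cft.WaistV2

set_option autoImplicit false
set_option synthInstance.maxHeartbeats 400000
set_option linter.style.haveILetI false

namespace Fermat.Agent.H25.Recip

open Fermat.Agent.H13.Cft Fermat.Agent.H78.CFT Fermat.Agent.H81.Local
open Fermat.Agent.H49.Unram Fermat.Agent.H61.CFT ExtCitation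

/-! ### The dictionary -/

/-- `Fact` instance for a member of `Nat.Primes` (local use). -/
theorem factPrime (q : Nat.Primes) : Fact (q : ℕ).Prime := ⟨q.2⟩

/-- The local field at `q : Nat.Primes`. -/
noncomputable def locField (q : Nat.Primes) : IntermediateField ℚ Qb :=
  haveI := factPrime q
  localField (q : ℕ)

theorem locField_eq (q : Nat.Primes) [Fact (q : ℕ).Prime] : locField q = localField (q : ℕ) :=
  rfl

/-- The localisation map lands in `G_{K_q}`. -/
theorem primeLocalToGlobal_mem (q : Nat.Primes) (γ : primeLocalGaloisGroup q) :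
    primeLocalToGlobal q γ ∈ (locField q).fixingSubgroup := by
  haveI := factPrime q
  have h := range_localGaloisToGlobal_eq_fixingSubgroup (q : ℕ)
  show primeLocalToGlobal q γ ∈ (localField (q : ℕ)).fixingSubgroup
  rw [← h]
  exact ⟨γ, rfl⟩

/-- The localisation map as a homomorphism `Γ_q → G_{K_q}`. -/
noncomputable def locHom (q : Nat.Primes) :
    primeLocalGaloisGroup q →* (locField q).fixingSubgroup :=
  (primeLocalToGlobal q).codRestrict _ (primeLocalToGlobal_mem q)

theorem locHom_bijective (q : Nat.Primes) : Function.Bijective (locHom q) := by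
  haveI := factPrime q
  constructor
  · intro γ δ h
    have h1 : primeLocalToGlobal q γ = primeLocalToGlobal q δ := congrArg Subtype.val h
    exact localGaloisToGlobal_injective (q : ℕ) h1
  · rintro ⟨σ, hσ⟩
    have h := range_localGaloisToGlobal_eq_fixingSubgroup (q : ℕ)
    have hσ' : σ ∈ (localGaloisToGlobal (q : ℕ)).range := by
      rw [h]; exact hσ
    obtain ⟨γ, hγ⟩ := hσ'
    exact ⟨γ, Subtype.ext hγ⟩

/-- The isomorphism `Γ_q ≅ G_{K_q}` (helper81). -/
noncomputable def locEquiv (q : Nat.Primes) :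
    primeLocalGaloisGroup q ≃* (locField q).fixingSubgroup :=
  MulEquiv.ofBijective (locHom q) (locHom_bijective q)

@[simp] theorem coe_locEquiv (q : Nat.Primes) (γ : primeLocalGaloisGroup q) :
    ((locEquiv q γ : (locField q).fixingSubgroup) : Qb ≃ₐ[ℚ] Qb) = primeLocalToGlobal q γ := rfl

/-- The FRAME local 2-cochain `a` at `q` as a function on `G_{K_q} × G_{K_q}`. -/
noncomputable def locCoch {A : Type} (q : Nat.Primes)
    (a : (Fin 2 → primeLocalGaloisGroup q) → A) :
    (locField q).fixingSubgroup × (locField q).fixingSubgroup → A :=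
  fun x => a ![(locEquiv q).symm x.1, (locEquiv q).symm x.2]

/-- The FRAME global 2-cochain `x` as a function on `G_ℚ × G_ℚ`, `G_ℚ = Q0.fixingSubgroup`. -/
def globCoch {A : Type} (x : (Fin 2 → (Qb ≃ₐ[ℚ] Qb)) → A) :
    Q0.fixingSubgroup × Q0.fixingSubgroup → A :=
  fun y => x ![(y.1 : Qb ≃ₐ[ℚ] Qb), (y.2 : Qb ≃ₐ[ℚ] Qb)]

/-! ### The leaves -/

/-- **[TR-DICT]** the dictionary respects levels, cocycles and coboundaries. -/
def TraceDictStatement : Prop :=
  ∀ (p : ℕ) [Fact p.Prime] (ζ : Qbˣ), IsPrimitiveRoot (ζ : Qb) p →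
    (∀ (S : Finset Nat.Primes)
        (x : lvlCochains (globalLevelSys S) (muRep (cycloChar p)) 2),
      IsLvlFun₂ (lvlE Q0) (zetaPow ζ (globCoch x.1)) ∧
        (lvlD (globalLevelSys S) (muRep (cycloChar p)) 2 x = 0 →
          IsMulCocycle₂E Q0 (zetaPow ζ (globCoch x.1)))) ∧
    (∀ (q : Nat.Primes)
        (a : lvlCochains (pullbackLevelSys (primeLocalToGlobal q))
          (Rep.res (primeLocalToGlobal q) (muRep (cycloChar p))) 2),
      IsLvlFun₂ (lvlE (locField q)) (zetaPow ζ (locCoch q a.1)) ∧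
        (lvlD (pullbackLevelSys (primeLocalToGlobal q))
            (Rep.res (primeLocalToGlobal q) (muRep (cycloChar p))) 2 a = 0 →
          IsMulCocycle₂E (locField q) (zetaPow ζ (locCoch q a.1)))) ∧
    (∀ (q : Nat.Primes)
        (b : lvlCochains (pullbackLevelSys (primeLocalToGlobal q))
          (Rep.res (primeLocalToGlobal q) (muRep (cycloChar p))) 1),
      IsLvlMulCoboundary₂E (locField q)
        (zetaPow ζ (locCoch q (lvlD (pullbackLevelSys (primeLocalToGlobal q))
          (Rep.res (primeLocalToGlobal q) (muRep (cycloChar p))) 1 b).1)))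

/-- **[TR-KUM]** Kummer surjectivity at the unramified class: there is a FRAME local
2-cocycle at `q` with values in `μ_p` whose canonical invariant is `1 / p`. -/
def TraceKummerStatement : Prop :=
  ∀ (p : ℕ) [Fact p.Prime] (ζ : Qbˣ), IsPrimitiveRoot (ζ : Qb) p →
    ∀ (q : Nat.Primes) [Fact (q : ℕ).Prime],
      ∃ a : lvlCochains (pullbackLevelSys (primeLocalToGlobal q))
          (Rep.res (primeLocalToGlobal q) (muRep (cycloChar p))) 2,
        lvlD (pullbackLevelSys (primeLocalToGlobal q))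
          (Rep.res (primeLocalToGlobal q) (muRep (cycloChar p))) 2 a = 0 ∧
        HasInv (q : ℕ) (localField (q : ℕ)) (zetaPow ζ (locCoch q a.1)) 1 p

/-- **[TR-UNRTRIV]** unramified classes with unit values are trivial (`E` local, general):
a 2-cocycle of `G_E` with values in the units of the valuation, right-invariant under
`N ∩ G_E` for an open normal subgroup `N` of `G_ℚ` containing the inertia group at `q`, is a
level coboundary. -/
def UnramTrivStatement : Prop :=
  ∀ (q : ℕ) [Fact q.Prime] (E : IntermediateField ℚ Qb), IsLocalFinite q E →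
    ∀ c : E.fixingSubgroup × E.fixingSubgroup → Qbˣ, IsMulCocycle₂E E c →
      (∃ N : Subgroup (Qb ≃ₐ[ℚ] Qb), N.Normal ∧
        (∃ F : IntermediateField ℚ Qb, FiniteDimensional ℚ F ∧ F.fixingSubgroup ≤ N) ∧
        (padicPlace q).inertiaSubgroupIn ℚ ≤ N ∧
        ∀ g h n m : E.fixingSubgroup, (n : Qb ≃ₐ[ℚ] Qb) ∈ N → (m : Qb ≃ₐ[ℚ] Qb) ∈ N →
          c (g * n, h * m) = c (g, h)) →
      (∀ x, qVal q ((c x : Qbˣ) : Qb) = 1) → IsLvlMulCoboundary₂E E c

/-- **[TR-UNR]** an `S`-level global `μ_p`-cocycle is locally trivial at every `q ∉ S`. -/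
def TraceUnramStatement : Prop :=
  ∀ (p : ℕ) [Fact p.Prime] (ζ : Qbˣ), IsPrimitiveRoot (ζ : Qb) p →
    ∀ (S : Finset Nat.Primes), pPrime p ∈ S →
    ∀ x : lvlCochains (globalLevelSys S) (muRep (cycloChar p)) 2,
      lvlD (globalLevelSys S) (muRep (cycloChar p)) 2 x = 0 →
      ∀ (q : ℕ) [Fact q.Prime], (⟨q, Fact.out⟩ : Nat.Primes) ∉ S →
        IsLvlMulCoboundary₂E (localField q) (resCochain₂ bot_le (zetaPow ζ (globCoch x.1)))

/-! ### The targets -/

/-- **[TR-CANON]** the canonical trace: a trace of `arithDatumQ p S hχ` whose local component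
at every `q ∈ S` is the canonical local invariant (with respect to `ζ`). -/
def TraceCanonStatement : Prop :=
  ∀ (p : ℕ) [Fact p.Prime], p ≠ 2 → ∀ (ζ : Qbˣ), IsPrimitiveRoot (ζ : Qb) p →
    ∀ (S : Finset Nat.Primes), pPrime p ∈ S →
    ∀ (hχ : ∃ N ∈ (globalLevelSys S).sets, ∀ s ∈ N, cycloChar p s = 1),
    ∃ T : Trace (arithDatumQ p S hχ), ∀ (v : (arithDatumQ p S hχ).ι)
      (a : lvlCochains ((arithDatumQ p S hχ).lvlv v)
        (Rep.res ((arithDatumQ p S hχ).loc v) (muRep (arithDatumQ p S hχ).χ)) 2),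
      lvlD ((arithDatumQ p S hχ).lvlv v)
        (Rep.res ((arithDatumQ p S hχ).loc v) (muRep (arithDatumQ p S hχ).χ)) 2 a = 0 →
      ∀ j : ℤ, (haveI := factPrime v.1
          HasInv (v.1 : ℕ) (localField (v.1 : ℕ)) (zetaPow ζ (locCoch v.1 a.1)) j p) →
        T.localAt v a = (j : ZMod p)

end Fermat.Agent.H25.Recip
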