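/-
P-CFT / RECIP-Q (helper25): the arithmetic of the reciprocity law.

* `exists_kappa` : a surjective homomorphism `κ : (ℤ/ℓ)ˣ → ℤ/p` for `p ∣ ℓ - 1`;
* `qVal_ratCast_eq` : `qVal v r = qVal v v ^ padicValRat v r`;
* `sum_kappa_padicValRat` : if `r · ℓ ^ (- ord_ℓ r)` is a `p`-th power residue mod `ℓ` then
  `∑_{v ≠ ℓ} ord_v(r) κ(v) = 0` in `ℤ/p`.
-/
import Fermat.Agent.H25.Recip.Interfaces
import Fermat.Agent.H81.Local.EFBase

set_option autoImplicit false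
set_option linter.style.haveILetI false

namespace Fermat.Agent.H25.Recip

open Fermat.Agent.H78.CFT Fermat.Agent.H81.Local

/-! ### The character `κ` -/

theorem exists_kappa (p ℓ : ℕ) [Fact p.Prime] [Fact ℓ.Prime] (h : p ∣ ℓ - 1) :
    ∃ κ : (ZMod ℓ)ˣ →* Multiplicative (ZMod p), Function.Surjective κ := by
  have hcard : Nat.card (ZMod ℓ)ˣ = ℓ - 1 := by
    rw [Nat.card_eq_fintype_card, ZMod.card_units_eq_totient, Nat.totient_prime Fact.out]
  have hc : IsCyclic (ZMod ℓ)ˣ := inferInstance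
  have h' : p ∣ Nat.card (ZMod ℓ)ˣ := hcard ▸ h
  refine ⟨(AddMonoidHom.toMultiplicative (ZMod.castHom h' (ZMod p)).toAddMonoidHom).comp
    (zmodCyclicMulEquiv hc).symm.toMonoidHom, ?_⟩
  intro y
  obtain ⟨x, hx⟩ := ZMod.castHom_surjective h' (Multiplicative.toAdd y)
  refine ⟨zmodCyclicMulEquiv hc (Multiplicative.ofAdd x), ?_⟩
  simp only [MonoidHom.coe_comp, Function.comp_apply, MulEquiv.coe_toMonoidHom,
    MulEquiv.symm_apply_apply]
  exact congrArg Multiplicative.ofAdd hx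

/-! ### `unitMod` -/

section unitMod

variable {ℓ : ℕ} [Fact ℓ.Prime]

theorem isUnit_intCast_iff (n : ℤ) : IsUnit ((n : ℤ) : ZMod ℓ) ↔ ¬ (ℓ : ℤ) ∣ n := by
  rw [isUnit_iff_ne_zero, ne_eq, ZMod.intCast_zmod_eq_zero_iff_dvd]

theorem coe_unitMod {n : ℤ} (h : ¬ (ℓ : ℤ) ∣ n) :
    ((unitMod ℓ n : (ZMod ℓ)ˣ) : ZMod ℓ) = (n : ZMod ℓ) := by
  have h' : IsUnit ((n : ℤ) : ZMod ℓ) := (isUnit_intCast_iff n).2 h
  unfold unitMod
  rw [dif_pos h']
  rfl

theorem unitMod_mul {m n : ℤ} (hm : ¬ (ℓ : ℤ) ∣ m) (hn : ¬ (ℓ : ℤ) ∣ n) :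
    unitMod ℓ (m * n) = unitMod ℓ m * unitMod ℓ n := by
  have hℓ : Prime (ℓ : ℤ) := Nat.prime_iff_prime_int.1 Fact.out
  have hmn : ¬ (ℓ : ℤ) ∣ m * n := fun h => (hℓ.dvd_or_dvd h).elim hm hn
  apply Units.ext
  rw [Units.val_mul, coe_unitMod hmn, coe_unitMod hm, coe_unitMod hn, Int.cast_mul]

theorem unitMod_one : unitMod ℓ 1 = 1 := by
  have h1 : ¬ (ℓ : ℤ) ∣ 1 := by
    intro h
    have := Int.natAbs_dvd_natAbs.2 h
    simp only [Int.natAbs_natCast, Int.natAbs_one, Nat.dvd_one] at this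
    exact (Fact.out : ℓ.Prime).one_lt.ne' this
  apply Units.ext
  rw [coe_unitMod h1, Int.cast_one, Units.val_one]

theorem unitMod_self : unitMod ℓ (ℓ : ℤ) = 1 := by
  unfold unitMod
  rw [dif_neg]
  rw [isUnit_intCast_iff]
  exact fun h => h dvd_rfl

end unitMod

/-! ### Valuations of rational numbers -/

section qval

variable (v : ℕ) [Fact v.Prime]

theorem qVal_natCast_of_not_dvd {m : ℕ} (h : ¬ v ∣ m) : qVal v ((m : ℕ) : Qb) = 1 := by
  refine le_antisymm (qVal_natCast_le_one v m) (not_lt.1 fun hlt => h ?_)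
  have h1 := (qVal_intCast_lt_one_iff v (m : ℤ)).1 (by simpa using hlt)
  exact Int.natCast_dvd_natCast.1 h1

theorem qVal_natCast_eq {n : ℕ} (hn : n ≠ 0) :
    qVal v ((n : ℕ) : Qb) = qVal v ((v : ℕ) : Qb) ^ (padicValNat v n) := by
  have hv : v.Prime := Fact.out
  have h1 := Nat.ordProj_mul_ordCompl_eq_self n v
  have h2 := Nat.not_dvd_ordCompl hv hn
  conv_lhs => rw [← h1]
  rw [Nat.cast_mul, Nat.cast_pow, map_mul, map_pow, qVal_natCast_of_not_dvd v h2, mul_one,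
    Nat.factorization_def n hv]

theorem qVal_ratCast_eq {r : ℚ} (hr : r ≠ 0) :
    qVal v ((r : ℚ) : Qb) = qVal v ((v : ℕ) : Qb) ^ (padicValRat v r) := by
  have hv : v.Prime := Fact.out
  have hnum : r.num.natAbs ≠ 0 := Int.natAbs_ne_zero.2 (Rat.num_ne_zero.2 hr)
  have hden : r.den ≠ 0 := r.den_nz
  have hv0 : qVal v ((v : ℕ) : Qb) ≠ 0 := by
    rw [ne_eq, map_eq_zero]
    exact_mod_cast hv.ne_zero
  have h1 : ((r : ℚ) : Qb) = ((r.num : ℤ) : Qb) / ((r.den : ℕ) : Qb) := by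
    conv_lhs => rw [← Rat.num_div_den r]
    push_cast
    rfl
  have h2 : qVal v ((r.num : ℤ) : Qb) = qVal v ((r.num.natAbs : ℕ) : Qb) := by
    rcases Int.natAbs_eq r.num with h | h
    · conv_lhs => rw [h]
      simp
    · conv_lhs => rw [h]
      simp
  rw [h1, map_div₀, h2, qVal_natCast_eq v hnum, qVal_natCast_eq v hden, padicValRat_def,
    zpow_sub₀ hv0, zpow_natCast, zpow_natCast]
  rfl

end qval

/-! ### The completely additive function `L` -/

section L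

variable {p ℓ : ℕ} [Fact p.Prime] [Fact ℓ.Prime] (κ : (ZMod ℓ)ˣ →* Multiplicative (ZMod p))

/-- `k_v = κ(v mod ℓ)` as an element of `ZMod p`. -/
noncomputable def kap (v : ℕ) : ZMod p := Multiplicative.toAdd (κ (unitMod ℓ (v : ℤ)))

/-- `L n = κ(ℓ-free part of n)`. -/
noncomputable def Lfun (n : ℕ) : ZMod p :=
  Multiplicative.toAdd (κ (unitMod ℓ ((n / ℓ ^ n.factorization ℓ : ℕ) : ℤ)))

theorem not_dvd_ordCompl_int {n : ℕ} (hn : n ≠ 0) :
    ¬ (ℓ : ℤ) ∣ ((n / ℓ ^ n.factorization ℓ : ℕ) : ℤ) := fun h =>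
  Nat.not_dvd_ordCompl (Fact.out : ℓ.Prime) hn (Int.natCast_dvd_natCast.1 h)

theorem Lfun_mul {a b : ℕ} (ha : a ≠ 0) (hb : b ≠ 0) :
    Lfun κ (a * b) = Lfun κ a + Lfun κ b := by
  unfold Lfun
  rw [Nat.ordCompl_mul, Nat.cast_mul, unitMod_mul (not_dvd_ordCompl_int ha)
    (not_dvd_ordCompl_int hb), map_mul, toAdd_mul]

theorem Lfun_one : Lfun κ 1 = 0 := by
  unfold Lfun
  simp [unitMod_one]

theorem Lfun_self : Lfun κ ℓ = 0 := by
  have hℓ : ℓ.Prime := Fact.out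
  unfold Lfun
  rw [hℓ.factorization_self, pow_one, Nat.div_self hℓ.pos, Nat.cast_one, unitMod_one, map_one,
    toAdd_one]

theorem Lfun_prime {q : ℕ} (hq : q.Prime) (hne : q ≠ ℓ) : Lfun κ q = kap κ q := by
  have hℓ : ℓ.Prime := Fact.out
  unfold Lfun kap
  have h0 : q.factorization ℓ = 0 := by
    rw [Nat.factorization_eq_zero_iff]
    right; left
    intro h
    exact hne ((Nat.prime_dvd_prime_iff_eq hℓ hq).1 h).symm
  rw [h0, pow_zero, Nat.div_one]

/-- The sum formula for `L`. -/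
theorem sum_padicValNat_kap (W : Finset ℕ) (hW : ∀ v ∈ W, v.Prime ∧ v ≠ ℓ) (n : ℕ) :
    n ≠ 0 → (∀ q : ℕ, q.Prime → q ∣ n → q = ℓ ∨ q ∈ W) →
    ∑ v ∈ W, (padicValNat v n : ZMod p) * kap κ v = Lfun κ n := by
  have hℓ : ℓ.Prime := Fact.out
  induction n using Nat.recOnMul with
  | zero => intro h; exact absurd rfl h
  | one =>
    intro _ _
    rw [Lfun_one]
    apply Finset.sum_eq_zero
    intro v _
    simp
  | prime q hq =>
    intro _ hdiv
    rcases hdiv q hq dvd_rfl with h | h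
    · subst h
      rw [Lfun_self]
      apply Finset.sum_eq_zero
      intro v hv
      haveI : Fact v.Prime := ⟨(hW v hv).1⟩
      rw [padicValNat_primes (hW v hv).2, Nat.cast_zero, zero_mul]
    · rw [Lfun_prime κ hq (hW q h).2, Finset.sum_eq_single q]
      · haveI : Fact q.Prime := ⟨hq⟩
        rw [padicValNat_self, Nat.cast_one, one_mul]
      · intro v hv hvq
        haveI : Fact v.Prime := ⟨(hW v hv).1⟩
        haveI : Fact q.Prime := ⟨hq⟩
        rw [padicValNat_primes hvq, Nat.cast_zero, zero_mul]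
      · intro hq'
        exact absurd h hq'
  | mul a b iha ihb =>
    intro hab hdiv
    have ha : a ≠ 0 := fun h => hab (by rw [h, zero_mul])
    have hb : b ≠ 0 := fun h => hab (by rw [h, mul_zero])
    rw [Lfun_mul κ ha hb, ← iha ha (fun q hq hqa => hdiv q hq (hqa.mul_right b)),
      ← ihb hb (fun q hq hqb => hdiv q hq (hqb.mul_left a)), ← Finset.sum_add_distrib]
    refine Finset.sum_congr rfl fun v hv => ?_
    haveI : Fact v.Prime := ⟨(hW v hv).1⟩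
    rw [padicValNat.mul ha hb, Nat.cast_add, add_mul]

end L

/-! ### The final arithmetic -/

section final

variable {p ℓ : ℕ} [Fact p.Prime] [Fact ℓ.Prime]

/-- Elements of `Multiplicative (ZMod p)` are killed by `p`. -/
theorem mult_zmod_pow (p : ℕ) (x : Multiplicative (ZMod p)) : x ^ p = 1 := by
  apply Multiplicative.toAdd.injective
  rw [toAdd_pow, toAdd_one, nsmul_eq_mul, ZMod.natCast_self, zero_mul]

theorem not_dvd_neg_one : ¬ (ℓ : ℤ) ∣ -1 := by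
  intro h
  have := Int.natAbs_dvd_natAbs.2 h
  simp only [Int.natAbs_natCast, Int.natAbs_neg, Int.natAbs_one, Nat.dvd_one] at this
  exact (Fact.out : ℓ.Prime).one_lt.ne' this

theorem kappa_unitMod_neg_one (hp2 : p ≠ 2) (κ : (ZMod ℓ)ˣ →* Multiplicative (ZMod p)) :
    κ (unitMod ℓ (-1)) = 1 := by
  have h1 : unitMod ℓ (-1) * unitMod ℓ (-1) = 1 := by
    rw [← unitMod_mul not_dvd_neg_one not_dvd_neg_one]
    norm_num [unitMod_one]
  have h2 : κ (unitMod ℓ (-1)) * κ (unitMod ℓ (-1)) = 1 := by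
    rw [← map_mul, h1, map_one]
  apply Multiplicative.toAdd.injective
  have h3 := congrArg Multiplicative.toAdd h2
  rw [toAdd_mul, toAdd_one] at h3
  rw [toAdd_one]
  have h4 : (2 : ZMod p) * Multiplicative.toAdd (κ (unitMod ℓ (-1))) = 0 := by
    rw [two_mul]; exact h3
  rcases mul_eq_zero.1 h4 with h | h
  · exfalso
    have h5 : ((2 : ℕ) : ZMod p) = 0 := by exact_mod_cast h
    rw [ZMod.natCast_eq_zero_iff] at h5
    have hp : p.Prime := Fact.out
    exact hp2 ((Nat.prime_dvd_prime_iff_eq hp Nat.prime_two).1 h5)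
  · exact h

/-- **The final arithmetic of the reciprocity law.** -/
theorem sum_kappa_padicValRat (hp2 : p ≠ 2) (κ : (ZMod ℓ)ˣ →* Multiplicative (ZMod p))
    (r : ℚ) (hr : r ≠ 0)
    (hres : IsPowResQ ℓ p (((r : ℚ) : Qb) * (((ℓ : ℕ) : Qb) ^ (padicValRat ℓ r))⁻¹))
    (W : Finset ℕ) (hW : ∀ v ∈ W, v.Prime ∧ v ≠ ℓ)
    (hsupp : ∀ v : ℕ, v.Prime → v ≠ ℓ → padicValRat v r ≠ 0 → v ∈ W) :
    ∑ v ∈ W, ((padicValRat v r : ℤ) : ZMod p) * kap κ v = 0 := by
  have hℓ : ℓ.Prime := Fact.out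
  have hp : p.Prime := Fact.out
  set A : ℕ := r.num.natAbs with hA
  set B : ℕ := r.den with hB
  have hA0 : A ≠ 0 := Int.natAbs_ne_zero.2 (Rat.num_ne_zero.2 hr)
  have hB0 : B ≠ 0 := r.den_nz
  have hcop : A.Coprime B := r.reduced
  have hval : ∀ v : ℕ, padicValRat v r = (padicValNat v A : ℤ) - (padicValNat v B : ℤ) :=
    fun v => padicValRat_def v r
  -- the divisor hypotheses
  have hdivA : ∀ q : ℕ, q.Prime → q ∣ A → q = ℓ ∨ q ∈ W := by
    intro q hq hqA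
    by_cases hql : q = ℓ
    · exact Or.inl hql
    · right
      apply hsupp q hq hql
      haveI : Fact q.Prime := ⟨hq⟩
      have h1 : ¬ q ∣ B := fun h => hq.one_lt.ne' (Nat.eq_one_of_dvd_coprimes hcop hqA h)
      have h2 : padicValNat q B = 0 := padicValNat.eq_zero_of_not_dvd h1
      have h3 : 1 ≤ padicValNat q A := one_le_padicValNat_of_dvd hA0 hqA
      rw [hval, h2]
      omega
  have hdivB : ∀ q : ℕ, q.Prime → q ∣ B → q = ℓ ∨ q ∈ W := by
    intro q hq hqB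
    by_cases hql : q = ℓ
    · exact Or.inl hql
    · right
      apply hsupp q hq hql
      haveI : Fact q.Prime := ⟨hq⟩
      have h1 : ¬ q ∣ A := fun h => hq.one_lt.ne' (Nat.eq_one_of_dvd_coprimes hcop h hqB)
      have h2 : padicValNat q A = 0 := padicValNat.eq_zero_of_not_dvd h1
      have h3 : 1 ≤ padicValNat q B := one_le_padicValNat_of_dvd hB0 hqB
      rw [hval, h2]
      omega
  have hsumA := sum_padicValNat_kap κ W hW A hA0 hdivA
  have hsumB := sum_padicValNat_kap κ W hW B hB0 hdivB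
  -- reduce to `L A = L B`
  have hsum : ∑ v ∈ W, ((padicValRat v r : ℤ) : ZMod p) * kap κ v = Lfun κ A - Lfun κ B := by
    rw [← hsumA, ← hsumB, ← Finset.sum_sub_distrib]
    refine Finset.sum_congr rfl fun v _ => ?_
    rw [hval, Int.cast_sub, Int.cast_natCast, Int.cast_natCast, sub_mul]
  rw [hsum, sub_eq_zero]
  -- the tame condition
  set α := A.factorization ℓ with hα
  set β := B.factorization ℓ with hβ
  set A' : ℕ := A / ℓ ^ α with hA'
  set B' : ℕ := B / ℓ ^ β with hB'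
  have hAA' : ℓ ^ α * A' = A := Nat.ordProj_mul_ordCompl_eq_self A ℓ
  have hBB' : ℓ ^ β * B' = B := Nat.ordProj_mul_ordCompl_eq_self B ℓ
  have hA'dvd : ¬ (ℓ : ℤ) ∣ (A' : ℤ) := not_dvd_ordCompl_int hA0
  have hB'dvd : ¬ (ℓ : ℤ) ∣ (B' : ℤ) := not_dvd_ordCompl_int hB0
  have hB'0 : ((B' : ℕ) : Qb) ≠ 0 := by
    have : B' ≠ 0 := (Nat.ordCompl_pos ℓ hB0).ne'
    exact_mod_cast this
  have hℓ0 : ((ℓ : ℕ) : Qb) ≠ 0 := by exact_mod_cast hℓ.ne_zero
  set s : ℤ := r.num.sign with hs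
  have hsA : s * (A : ℤ) = r.num := Int.sign_mul_natAbs r.num
  have hs1 : s = 1 ∨ s = -1 := by
    rcases lt_trichotomy r.num 0 with h | h | h
    · right; exact Int.sign_eq_neg_one_of_neg h
    · exact absurd h (Rat.num_ne_zero.2 hr)
    · left; exact Int.sign_eq_one_of_pos h
  have hsdvd : ¬ (ℓ : ℤ) ∣ s := by
    rcases hs1 with h | h
    · rw [h]
      intro h'
      have := Int.natAbs_dvd_natAbs.2 h'
      simp only [Int.natAbs_natCast, Int.natAbs_one, Nat.dvd_one] at this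
      exact hℓ.one_lt.ne' this
    · rw [h]; exact not_dvd_neg_one
  -- `r ℓ^(-e) = s A' / B'`
  have hrep : ((r : ℚ) : Qb) * (((ℓ : ℕ) : Qb) ^ (padicValRat ℓ r))⁻¹ =
      ((s : ℤ) : Qb) * ((A' : ℕ) : Qb) / ((B' : ℕ) : Qb) := by
    have h1 : ((r : ℚ) : Qb) = ((r.num : ℤ) : Qb) / ((r.den : ℕ) : Qb) := by
      conv_lhs => rw [← Rat.num_div_den r]
      push_cast
      rfl
    have h2 : ((r.num : ℤ) : Qb) = ((s : ℤ) : Qb) * (((ℓ : ℕ) : Qb) ^ α * ((A' : ℕ) : Qb)) := by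
      rw [← hsA, ← hAA']
      push_cast
      rfl
    have h3 : ((r.den : ℕ) : Qb) = ((ℓ : ℕ) : Qb) ^ β * ((B' : ℕ) : Qb) := by
      rw [← hB, ← hBB']
      push_cast
      rfl
    have h4 : padicValRat ℓ r = (α : ℤ) - (β : ℤ) := by
      rw [hval, hα, hβ, Nat.factorization_def A hℓ, Nat.factorization_def B hℓ]
    rw [h1, h2, h3, h4, zpow_sub₀ hℓ0, zpow_natCast, zpow_natCast]
    field_simp
  obtain ⟨b, hb⟩ := hres
  rw [hrep] at hb
  have hb2 : qVal ℓ (((s * (A' : ℤ) - (B' : ℤ) * b ^ p : ℤ) : ℤ) : Qb) < 1 := by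
    have h1 : (((s * (A' : ℤ) - (B' : ℤ) * b ^ p : ℤ) : ℤ) : Qb) =
        (((s : ℤ) : Qb) * ((A' : ℕ) : Qb) / ((B' : ℕ) : Qb) - ((b : ℤ) : Qb) ^ p) *
          ((B' : ℕ) : Qb) := by
      push_cast
      field_simp
    rw [h1, map_mul]
    calc qVal ℓ _ * qVal ℓ ((B' : ℕ) : Qb) ≤ qVal ℓ _ * 1 :=
          mul_le_mul' le_rfl (qVal_natCast_le_one ℓ B')
      _ < 1 := by rw [mul_one]; exact hb
  have hb3 : (ℓ : ℤ) ∣ s * (A' : ℤ) - (B' : ℤ) * b ^ p := (qVal_intCast_lt_one_iff ℓ _).1 hb2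
  have hb4 : ((s * (A' : ℤ) : ℤ) : ZMod ℓ) = (((B' : ℤ) * b ^ p : ℤ) : ZMod ℓ) := by
    have := (ZMod.intCast_zmod_eq_zero_iff_dvd _ ℓ).2 hb3
    rw [Int.cast_sub, sub_eq_zero] at this
    exact this
  have hℓp : Prime (ℓ : ℤ) := Nat.prime_iff_prime_int.1 hℓ
  have hbdvd : ¬ (ℓ : ℤ) ∣ b := by
    intro h
    have h1 : (ℓ : ℤ) ∣ (B' : ℤ) * b ^ p := Dvd.dvd.mul_left (dvd_pow h hp.ne_zero) _
    have h2 : (ℓ : ℤ) ∣ s * (A' : ℤ) := by
      have := dvd_add hb3 h1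
      rwa [sub_add_cancel] at this
    exact (hℓp.dvd_or_dvd h2).elim hsdvd hA'dvd
  have hunits : unitMod ℓ s * unitMod ℓ (A' : ℤ) = unitMod ℓ (B' : ℤ) * unitMod ℓ b ^ p := by
    apply Units.ext
    rw [Units.val_mul, Units.val_mul, Units.val_pow_eq_pow_val, coe_unitMod hsdvd,
      coe_unitMod hA'dvd, coe_unitMod hB'dvd, coe_unitMod hbdvd]
    exact_mod_cast hb4
  have hκs : κ (unitMod ℓ s) = 1 := by
    rcases hs1 with h | h
    · rw [h, unitMod_one, map_one]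
    · rw [h]; exact kappa_unitMod_neg_one hp2 κ
  have hκ := congrArg κ hunits
  rw [map_mul, map_mul, map_pow, mult_zmod_pow, mul_one, hκs, one_mul] at hκ
  unfold Lfun
  rw [← hA', ← hB']
  exact congrArg Multiplicative.toAdd hκ

end final

end Fermat.Agent.H25.Recip
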