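/-
P-CFT / RECIP-Q (helper25): the local computations of the reciprocity law, from the leaves.

For `c' = inflE Q0 M (stdCocycle σ a)`, `M = fieldM ℓ p`, `a ∈ ℚˣ`:
* `hasInv_res_infl` : at a prime `v ≠ ℓ`, `inv_v(c') = κ(v) · ord_v(a) / p`;
* `isPowRes_of_res_coboundary` : at `ℓ`, if `res_ℓ c'` is a level coboundary then
  `a · ℓ ^ (- ord_ℓ a)` is a `p`-th power residue mod `ℓ`.
-/
import Fermat.Agent.H25.Recip.Interfaces
import Fermat.Agent.H25.Recip.Arith
import Fermat.Agent.H78.CFT.LocalInvRes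
import Fermat.Agent.H98.Brauer.FinLvl
import Fermat.Agent.H81.Local.EFBase

set_option autoImplicit false
set_option synthInstance.maxHeartbeats 400000
set_option linter.style.haveILetI false

namespace Fermat.Agent.H25.Recip

open Fermat.Agent.H13.Cft Fermat.Agent.H78.CFT Fermat.Agent.H81.Local
open Fermat.Agent.H49.Unram Fermat.Agent.H61.CFT ExtCitation

/-- The image of a rational unit in `K_v`. -/
noncomputable def toLoc (E : IntermediateField ℚ Qb) : Q0ˣ →* Eˣ :=
  Units.map ((IntermediateField.inclusion (bot_le : Q0 ≤ E) : Q0 →+* E) : Q0 →* E)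

@[simp] theorem coe_toLoc (E : IntermediateField ℚ Qb) (a : Q0ˣ) :
    (((toLoc E a : Eˣ) : E) : Qb) = ((a : Q0) : Qb) := rfl

theorem restrictScalars_fieldM0 (ℓ p : ℕ) [Fact ℓ.Prime] :
    (fieldM0 ℓ p).restrictScalars ℚ = fieldM ℓ p :=
  IntermediateField.extendScalars_restrictScalars _

theorem restrictScalars_fieldMLoc (ℓ p v : ℕ) [Fact ℓ.Prime] [Fact v.Prime] :
    (fieldMLoc ℓ p v).restrictScalars ℚ = fieldM ℓ p ⊔ localField v :=
  IntermediateField.extendScalars_restrictScalars _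

/-- `ℓ`, `v` as a unit of `K_v`. -/
noncomputable def natUnit (v : ℕ) [Fact v.Prime] : (localField v)ˣ :=
  Units.mk0 ⟨((v : ℕ) : Qb), IntermediateField.natCast_mem _ v⟩ (by
    intro h
    have h1 : ((v : ℕ) : Qb) = 0 := congrArg Subtype.val h
    have : (v : ℕ) ≠ 0 := (Fact.out : v.Prime).ne_zero
    exact this (by exact_mod_cast h1))

@[simp] theorem coe_natUnit (v : ℕ) [Fact v.Prime] :
    (((natUnit v : (localField v)ˣ) : localField v) : Qb) = ((v : ℕ) : Qb) := rfl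

theorem isUnif_natUnit (v : ℕ) [Fact v.Prime] :
    IsUnif v (localField v) (((natUnit v : (localField v)ˣ) : localField v) : Qb) :=
  isUnif_natCast_localField v

/-- **The local invariant of `infl (stdCocycle σ a)` at `v ≠ ℓ`.** -/
theorem hasInv_res_infl (hunr : FieldMUnramStatement) (hgen : ChangeGenStatement)
    (hbc : BaseChangeStatement) (hbc0 : BaseChangeSplitStatement)
    (hstd : UnramCocycleStatement)
    (p ℓ v : ℕ) [Fact p.Prime] [Fact ℓ.Prime] [Fact v.Prime] (hpl : p ∣ ℓ - 1) (hvl : v ≠ ℓ)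
    (κ : (ZMod ℓ)ˣ →* Multiplicative (ZMod p))
    [FiniteDimensional Q0 (fieldM0 ℓ p)] [IsGalois Q0 (fieldM0 ℓ p)]
    (hfin : Module.finrank Q0 (fieldM0 ℓ p) = p)
    (σ : fieldM0 ℓ p ≃ₐ[Q0] fieldM0 ℓ p)
    (hσ : ∀ τ : fieldM0 ℓ p ≃ₐ[Q0] fieldM0 ℓ p, τ ∈ Subgroup.zpowers σ)
    (hσκ : ∀ g : Q0.fixingSubgroup, resEF Q0 (fieldM0 ℓ p) g =
      σ ^ (Multiplicative.toAdd (κ (cycloChar ℓ (g : Qb ≃ₐ[ℚ] Qb)))).val)
    (a : Q0ˣ) (e : ℤ) (ha : qVal v ((a : Q0) : Qb) = qVal v ((v : ℕ) : Qb) ^ e) :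
    HasInv v (localField v)
      (resCochain₂ bot_le (inflE Q0 (fieldM0 ℓ p) (stdCocycle σ (uMap Q0 (fieldM0 ℓ p) a))))
      (((Multiplicative.toAdd (κ (unitMod ℓ v))).val : ℤ) * e) p := by
  classical
  have hp : p.Prime := Fact.out
  have hv : IsLocalFinite v (localField v) := isLocalFinite_localField v
  obtain ⟨-, h2, h3, h4⟩ := hunr p ℓ v hpl hvl
  by_cases hpow : ∃ u : (ZMod ℓ)ˣ, unitMod ℓ v = u ^ p
  · -- split case
    have hle := h3 hpow
    have hone : ∀ x, resCochain₂ bot_le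
        (inflE Q0 (fieldM0 ℓ p) (stdCocycle σ (uMap Q0 (fieldM0 ℓ p) a))) x = 1 :=
      hbc0 Q0 (localField v) bot_le (fieldM0 ℓ p)
        (by rw [restrictScalars_fieldM0]; exact hle) σ _
    have hcob : IsLvlMulCoboundary₂E (localField v) (resCochain₂ bot_le
        (inflE Q0 (fieldM0 ℓ p) (stdCocycle σ (uMap Q0 (fieldM0 ℓ p) a)))) :=
      (isLvlMulCoboundary₂E_one _).congr fun x => (hone x).symm
    have h0 := (hasInv_zero_iff hv hp.pos _).2 hcob
    have hk0 : (Multiplicative.toAdd (κ (unitMod ℓ v))).val = 0 := by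
      obtain ⟨u, hu⟩ := hpow
      rw [hu, map_pow, mult_zmod_pow, toAdd_one, ZMod.val_zero]
    rw [hk0]
    simpa using h0
  · -- inert case
    have hF' := h4 hpow
    obtain ⟨φ, hφ⟩ := exists_isFrobE hv hp.pos
    haveI : FiniteDimensional (localField v) (unramExt v (localField v) p) :=
      hφ.finiteDimensional
    haveI : IsGalois (localField v) (unramExt v (localField v) p) := hφ.isGalois
    obtain ⟨σ', hσ', hcompat, heq⟩ := hbc Q0 (localField v) bot_le (fieldM0 ℓ p)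
      (unramExt v (localField v) p) (by rw [restrictScalars_fieldM0]; exact hF'.symm)
      (by rw [hφ.finrank_eq, hfin]) σ hσ
    set k := (Multiplicative.toAdd (κ (unitMod ℓ v))).val with hk
    -- the Frobenius is `σ' ^ k`
    obtain ⟨g, hg⟩ := Fermat.Agent.H75.Inf2.resEF_surjective (localField v)
      (unramExt v (localField v) p) φ
    obtain ⟨u, hu⟩ := h2 φ hφ g hg
    have hgσ : resEF Q0 (fieldM0 ℓ p)
        (Subgroup.inclusion (IntermediateField.fixingSubgroup_le bot_le) g) = σ ^ k := by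
      rw [hσκ]
      have : ((Subgroup.inclusion (IntermediateField.fixingSubgroup_le
          (bot_le : Q0 ≤ localField v)) g : Q0.fixingSubgroup) : Qb ≃ₐ[ℚ] Qb) =
          (g : Qb ≃ₐ[ℚ] Qb) := rfl
      rw [this, hu, map_mul, map_pow, mult_zmod_pow, mul_one]
    have hφσ : φ = σ' ^ k := by
      rw [← hg]
      exact hcompat g k hgσ
    -- change of generator
    have hgenσ' : IsGen σ' := isGen_of_forall_mem_zpowers hσ'
    have hgenφ : IsGen (σ' ^ k) := by
      rw [← hφσ]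
      exact isGen_of_forall_mem_zpowers hφ.gen
    set a' : (localField v)ˣ := toLoc (localField v) a with ha'
    have hfix : σ' • uMap (localField v) (unramExt v (localField v) p) a' =
        uMap (localField v) (unramExt v (localField v) p) a' :=
      smul_unitsIncl σ' a'
    have hcg := hgen _ _ σ' hgenσ' k hgenφ _ hfix
    have hlv := Fermat.Agent.H98.Brauer.finToLvl (localField v)
      (unramExt v (localField v) p) _ hcg
    -- the unramified cocycle of `a' ^ k`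
    have hak : qVal v ((((a' ^ (k : ℤ) : (localField v)ˣ)) : localField v) : Qb) =
        qVal v (((natUnit v : (localField v)ˣ) : localField v) : Qb) ^ ((k : ℤ) * e) := by
      have h1 : ((((a' ^ (k : ℤ) : (localField v)ˣ)) : localField v) : Qb) =
          ((a : Q0) : Qb) ^ (k : ℤ) := by
        rw [Units.val_zpow_eq_zpow_val]
        rfl
      rw [h1, map_zpow₀, ha, coe_natUnit, ← zpow_mul, mul_comm]
    have hinv := hasInv_unramCocycle hstd hv hφ (isUnif_natUnit v) (a' ^ (k : ℤ)) ((k : ℤ) * e) hak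
    have hfinal := hinv.mul_coboundary hlv
    obtain ⟨π, φ₀, hπ, hφ₀, hcob⟩ := hfinal
    refine ⟨π, φ₀, hπ, hφ₀, hcob.congr fun x => ?_⟩
    have hx := congrFun (heq a a' rfl) x
    rw [hx]
    congr 1
    -- `unramCocycle φ (a'^k) * (infl (std σ' a') / infl (std (σ'^k) (a'^k))) = infl (std σ' a')`
    show unramCocycle v (localField v) p φ (a' ^ (k : ℤ)) x * _ = _
    have h3 : unramCocycle v (localField v) p φ (a' ^ (k : ℤ)) x =
        inflE (localField v) (unramExt v (localField v) p)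
          (stdCocycle (σ' ^ k) (uMap (localField v) (unramExt v (localField v) p) a' ^ k)) x := by
      rw [hφσ]
      show inflE _ _ (stdCocycle (σ' ^ k) (unitOfE v (localField v) p (a' ^ (k : ℤ)))) x = _
      congr 2
    rw [h3]
    simp only [inflE, map_div]
    rw [mul_div_cancel]

/-- **The tame computation at `ℓ`.** -/
theorem isPowRes_of_res_coboundary (htame : FieldMTameStatement) (hbc : BaseChangeStatement)
    (hnorm : CyclicNormStatement)
    (p ℓ : ℕ) [Fact p.Prime] [Fact ℓ.Prime] (hp2 : p ≠ 2) (hpl : p ∣ ℓ - 1)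
    [FiniteDimensional Q0 (fieldM0 ℓ p)] [IsGalois Q0 (fieldM0 ℓ p)]
    (hfin : Module.finrank Q0 (fieldM0 ℓ p) = p)
    (σ : fieldM0 ℓ p ≃ₐ[Q0] fieldM0 ℓ p)
    (hσ : ∀ τ : fieldM0 ℓ p ≃ₐ[Q0] fieldM0 ℓ p, τ ∈ Subgroup.zpowers σ)
    (a : Q0ˣ) (e : ℤ) (ha : qVal ℓ ((a : Q0) : Qb) = qVal ℓ ((ℓ : ℕ) : Qb) ^ e)
    (hcob : IsLvlMulCoboundary₂E (localField ℓ) (resCochain₂ bot_le
      (inflE Q0 (fieldM0 ℓ p) (stdCocycle σ (uMap Q0 (fieldM0 ℓ p) a))))) :
    IsPowResQ ℓ p (((a : Q0) : Qb) * (((ℓ : ℕ) : Qb) ^ e)⁻¹) := by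
  obtain ⟨hfd, hgal, hfin', hN⟩ := htame p ℓ hp2 hpl
  haveI := hfd
  haveI := hgal
  obtain ⟨σ', hσ', -, heq⟩ := hbc Q0 (localField ℓ) bot_le (fieldM0 ℓ p)
    (fieldMLoc ℓ p ℓ) (by rw [restrictScalars_fieldM0, restrictScalars_fieldMLoc])
    (by rw [hfin', hfin]) σ hσ
  set a' : (localField ℓ)ˣ := toLoc (localField ℓ) a with ha'
  have h1 := heq a a' rfl
  rw [h1] at hcob
  obtain ⟨y, hy⟩ := (hnorm (localField ℓ) (fieldMLoc ℓ p ℓ) σ' hσ' a').1 hcob
  exact hN (a' : localField ℓ) e ha ⟨y, hy⟩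

end Fermat.Agent.H25.Recip
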