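/-
P-CFT / RECIP-Q (helper25): ASSEMBLY of the reciprocity law for the `p`-torsion of `Br(ℚ)`
from its leaves.

`recipQ_of_leaves` : all the leaves ⟹ `RecipQStatement`.
-/
import Fermat.Agent.H25.Recip.LocalComp

set_option autoImplicit false
set_option synthInstance.maxHeartbeats 400000
set_option linter.style.haveILetI false

namespace Fermat.Agent.H25.Recip

open Fermat.Agent.H13.Cft Fermat.Agent.H78.CFT Fermat.Agent.H81.Local
open Fermat.Agent.H49.Unram Fermat.Agent.H61.CFT ExtCitation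

/-- A unit of `Q0 = ⊥` is a nonzero rational number. -/
theorem exists_rat_of_unit (a : Q0ˣ) : ∃ r : ℚ, r ≠ 0 ∧ ((a : Q0) : Qb) = ((r : ℚ) : Qb) := by
  obtain ⟨r, hr⟩ := IntermediateField.mem_bot.1 (a : Q0).2
  refine ⟨r, ?_, ?_⟩
  · rintro rfl
    rw [map_zero] at hr
    have h0 : ((a : Q0) : Qb) = 0 := hr.symm
    have h1 : (a : Q0) = 0 := Subtype.ext h0
    exact a.ne_zero h1
  · rw [← hr]
    exact eq_ratCast (algebraMap ℚ Qb) r

/-- Restriction in two steps. -/
theorem resCochain₂_resCochain₂ {E E' E'' : IntermediateField ℚ Qb} (h : E ≤ E') (h' : E' ≤ E'')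
    {M : Type} (c : E.fixingSubgroup × E.fixingSubgroup → M) :
    resCochain₂ h' (resCochain₂ h c) = resCochain₂ (h.trans h') c := rfl

/-- The support of a nonzero rational number. -/
theorem exists_support (r : ℚ) (hr : r ≠ 0) :
    ∃ W : Finset ℕ, (∀ v ∈ W, v.Prime) ∧ ∀ v : ℕ, v.Prime → padicValRat v r ≠ 0 → v ∈ W := by
  refine ⟨r.num.natAbs.primeFactors ∪ r.den.primeFactors, ?_, ?_⟩
  · intro v hv
    rcases Finset.mem_union.1 hv with h | h
    · exact Nat.prime_of_mem_primeFactors h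
    · exact Nat.prime_of_mem_primeFactors h
  · intro v hv hne
    have hnum : r.num.natAbs ≠ 0 := Int.natAbs_ne_zero.2 (Rat.num_ne_zero.2 hr)
    rw [padicValRat_def] at hne
    by_contra hmem
    rw [Finset.mem_union, not_or] at hmem
    have h1 : padicValNat v r.num.natAbs = 0 := by
      by_contra h
      have hdvd : v ∣ r.num.natAbs := dvd_of_one_le_padicValNat (Nat.one_le_iff_ne_zero.2 h)
      exact hmem.1 (Nat.mem_primeFactors.2 ⟨hv, hdvd, hnum⟩)
    have h2 : padicValNat v r.den = 0 := by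
      by_contra h
      have hdvd : v ∣ r.den := dvd_of_one_le_padicValNat (Nat.one_le_iff_ne_zero.2 h)
      exact hmem.2 (Nat.mem_primeFactors.2 ⟨hv, hdvd, r.den_nz⟩)
    apply hne
    have h3 : padicValInt v r.num = 0 := by
      unfold padicValInt
      exact h1
    rw [h3, h2]
    simp

/-- **[RECIP-Q] from its leaves.** -/
theorem recipQ_of_leaves (haux : AuxPrimeStatement) (hfield : FieldMStatement)
    (hunr : FieldMUnramStatement) (htame : FieldMTameStatement) (hgen : ChangeGenStatement)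
    (hsplit : SplitCyclicStatement) (hbc : BaseChangeStatement)
    (hbc0 : BaseChangeSplitStatement) (hhasse : HasseQStatement)
    (hstd : UnramCocycleStatement) (huniq : InvUniqueStatement) (hper : InvPeriodStatement)
    (hnorm : CyclicNormStatement) : RecipQStatement := by
  intro p _ hp2 c hlvl hcoc hpow T j hT hout hin
  classical
  have hp : p.Prime := Fact.out
  -- the primes with a nontrivial invariant
  set T' : Finset ℕ := T.filter (fun q => ¬ (p : ℤ) ∣ j q) with hT'
  have hT'prime : ∀ q ∈ T', q.Prime := fun q hq => hT q (Finset.mem_filter.1 hq).1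
  -- the auxiliary prime and the field `M`
  obtain ⟨ℓ, hℓ, hpl, hℓT', -, hnon⟩ := haux p hp2 T' hT'prime
  haveI : Fact ℓ.Prime := ⟨hℓ⟩
  obtain ⟨κ, hκ⟩ := exists_kappa p ℓ hpl
  obtain ⟨hMfd, hMgal, hfd0, hgal0, hfin, hσex⟩ := hfield p ℓ hpl
  haveI := hfd0
  haveI := hgal0
  obtain ⟨σ, hσ, -, hσκ⟩ := hσex κ hκ
  -- local triviality outside `T'`
  have hloc0 : ∀ (q : ℕ) [Fact q.Prime], q ∉ T' →
      IsLvlMulCoboundary₂E (localField q) (resCochain₂ bot_le c) := by
    intro q _ hq
    by_cases hqT : q ∈ T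
    · have hdvd : (p : ℤ) ∣ j q := by
        by_contra h
        exact hq (Finset.mem_filter.2 ⟨hqT, h⟩)
      have h1 := hin q hqT
      have h2 := hper q (localField q) (isLocalFinite_localField q) p _ (j q) 0 h1
        (by simpa using hdvd)
      exact (hasInv_zero_iff (isLocalFinite_localField q) hp.pos _).1 h2
    · exact hout q hqT
  -- local triviality over `M · K_q` for all `q`
  have hloc : ∀ (q : ℕ) [Fact q.Prime],
      IsLvlMulCoboundary₂E (fieldM ℓ p ⊔ localField q) (resCochain₂ bot_le c) := by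
    intro q _
    by_cases hq : q ∈ T'
    · have hqℓ : q ≠ ℓ := fun h => hℓT' (h ▸ hq)
      have h1 := hin q (Finset.mem_filter.1 hq).1
      obtain ⟨-, -, -, h4⟩ := hunr p ℓ q hpl hqℓ
      have hF' := h4 (hnon q hq)
      have h2 := h1.res_coboundary (le_sup_right : localField q ≤ fieldM ℓ p ⊔ localField q)
        (fun x hx => by
          rw [hF']
          exact hx)
      exact h2
    · exact (hloc0 q hq).res (le_sup_right : localField q ≤ fieldM ℓ p ⊔ localField q)
  -- the Hasse principle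
  have hM := hhasse p hp2 c hlvl hcoc hpow (fieldM ℓ p) hMfd hMgal hloc
  -- the normal form
  obtain ⟨a, hca⟩ := hsplit Q0 (fieldM0 ℓ p) σ hσ c hlvl hcoc (fieldM ℓ p) bot_le
    (restrictScalars_fieldM0 ℓ p) hM
  obtain ⟨r, hr, har⟩ := exists_rat_of_unit a
  set c' := inflE Q0 (fieldM0 ℓ p) (stdCocycle σ (uMap Q0 (fieldM0 ℓ p) a)) with hc'
  -- the invariants of `c` at `v ≠ ℓ`
  have hinv : ∀ (v : ℕ) [Fact v.Prime], v ≠ ℓ →
      HasInv v (localField v) (resCochain₂ bot_le c)
        (((Multiplicative.toAdd (κ (unitMod ℓ v))).val : ℤ) * padicValRat v r) p := by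
    intro v _ hvℓ
    have h1 := hasInv_res_infl hunr hgen hbc hbc0 hstd p ℓ v hpl hvℓ κ hfin σ hσ hσκ a
      (padicValRat v r) (by rw [har]; exact qVal_ratCast_eq v hr)
    have h2 := h1.mul_coboundary (hca.res (bot_le : Q0 ≤ localField v))
    have h3 : (fun x => resCochain₂ (bot_le : Q0 ≤ localField v) c' x *
        resCochain₂ (bot_le : Q0 ≤ localField v) (fun x => c x / c' x) x) =
        resCochain₂ (bot_le : Q0 ≤ localField v) c := by
      funext x
      simp only [resCochain₂_apply]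
      rw [mul_div_cancel]
    rw [← h3]
    exact h2
  -- the congruences
  have hk : ∀ v : ℕ, ((((Multiplicative.toAdd (κ (unitMod ℓ v))).val : ℕ) : ℤ) : ZMod p) =
      kap κ v := by
    intro v
    rw [Int.cast_natCast, ZMod.natCast_zmod_val]
    rfl
  have hcong : ∀ v ∈ T', ((j v : ℤ) : ZMod p) = ((padicValRat v r : ℤ) : ZMod p) * kap κ v := by
    intro v hv
    haveI : Fact v.Prime := ⟨hT'prime v hv⟩
    have hvℓ : v ≠ ℓ := fun h => hℓT' (h ▸ hv)
    have h1 := huniq v (localField v) (isLocalFinite_localField v) p _ _ _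
      (hin v (Finset.mem_filter.1 hv).1) (hinv v hvℓ)
    have h2 := (ZMod.intCast_zmod_eq_zero_iff_dvd _ p).2 h1
    rw [Int.cast_sub, sub_eq_zero, Int.cast_mul, hk] at h2
    rw [h2, mul_comm]
  have hzero : ∀ v : ℕ, v.Prime → v ≠ ℓ → v ∉ T' →
      ((padicValRat v r : ℤ) : ZMod p) * kap κ v = 0 := by
    intro v hv hvℓ hvT
    haveI : Fact v.Prime := ⟨hv⟩
    have h0 := (hasInv_zero_iff (isLocalFinite_localField v) hp.pos _).2 (hloc0 v hvT)
    have h1 := huniq v (localField v) (isLocalFinite_localField v) p _ _ _ h0 (hinv v hvℓ)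
    have h2 := (ZMod.intCast_zmod_eq_zero_iff_dvd _ p).2 h1
    rw [Int.cast_sub, Int.cast_zero, zero_sub, neg_eq_zero, Int.cast_mul, hk] at h2
    rw [mul_comm]
    exact h2
  -- the computation at `ℓ`
  have hℓcob : IsLvlMulCoboundary₂E (localField ℓ) (resCochain₂ bot_le c') := by
    have h1 := hloc0 ℓ hℓT'
    have h2 := hca.res (bot_le : Q0 ≤ localField ℓ)
    refine (h1.div h2).congr fun x => ?_
    simp only [resCochain₂_apply]
    rw [div_div_cancel]
  have hres := isPowRes_of_res_coboundary htame hbc hnorm p ℓ hp2 hpl hfin σ hσ a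
    (padicValRat ℓ r) (by rw [har]; exact qVal_ratCast_eq ℓ hr) hℓcob
  rw [har] at hres
  -- the final arithmetic
  obtain ⟨W₀, hW₀, hsupp₀⟩ := exists_support r hr
  set W : Finset ℕ := T' ∪ W₀.filter (fun v => v ≠ ℓ) with hW
  have hWprop : ∀ v ∈ W, v.Prime ∧ v ≠ ℓ := by
    intro v hv
    rcases Finset.mem_union.1 hv with h | h
    · exact ⟨hT'prime v h, fun h' => hℓT' (h' ▸ h)⟩
    · exact ⟨hW₀ v (Finset.mem_filter.1 h).1, (Finset.mem_filter.1 h).2⟩
  have hsum := sum_kappa_padicValRat hp2 κ r hr hres W hWprop (fun v hv hvℓ hne =>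
    Finset.mem_union.2 (Or.inr (Finset.mem_filter.2 ⟨hsupp₀ v hv hne, hvℓ⟩)))
  have hsum' : ∑ v ∈ T', ((padicValRat v r : ℤ) : ZMod p) * kap κ v = 0 := by
    rw [← hsum]
    refine Finset.sum_subset Finset.subset_union_left fun v hv hvT => ?_
    exact hzero v (hWprop v hv).1 (hWprop v hv).2 hvT
  have hsumT : ∑ q ∈ T', ((j q : ℤ) : ZMod p) = ∑ q ∈ T, ((j q : ℤ) : ZMod p) := by
    refine Finset.sum_subset (Finset.filter_subset _ T) fun q hq hqT => ?_
    have hdvd : (p : ℤ) ∣ j q := by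
      by_contra h
      exact hqT (Finset.mem_filter.2 ⟨hq, h⟩)
    exact (ZMod.intCast_zmod_eq_zero_iff_dvd _ p).2 hdvd
  rw [← ZMod.intCast_zmod_eq_zero_iff_dvd, Int.cast_sum, ← hsumT, Finset.sum_congr rfl hcong]
  exact hsum'

end Fermat.Agent.H25.Recip
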