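/-
P-CFT / RECIP-Q (helper25): THE RECIPROCITY LAW FOR THE `p`-TORSION OF `Br(ℚ)`, UNCONDITIONAL.

`recipQ : RecipQStatement` — the sum of the local invariants of a `p`-torsion Brauer class of
`ℚ` vanishes.  Assembly (`recipQ_of_leaves`) applied to the landed leaves:
AuxPrime (helper76), FieldM (helper94), FieldMUnram (helper90), FieldMTame (helper81),
ChangeGen (helper42), SplitCyclic (helper50), BaseChange (helper17), HasseQ (helper97),
UnramCocycle / InvUnique / InvPeriod (helper78), CyclicNorm (helper86).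
-/
import Fermat.Agent.H25.Recip.Assembly
import Fermat.Agent.H76.Cft.AuxPrime
import Fermat.Agent.H94.Recip.FieldM
import Fermat.Agent.H90.Recip.FieldMUnr
import Fermat.Agent.H81.Recip.FieldMTame
import Fermat.Agent.H42.Cft.ChangeGen
import Fermat.Agent.H50.Recip.SplitCyclic
import Fermat.Agent.H17.Recip.BaseChange
import Fermat.Agent.H97.Hasse.Main
import Fermat.Agent.H78.CFT.LocalUncond
import Fermat.Agent.H86.CftCyclicNorm

set_option autoImplicit false

namespace Fermat.Agent.H25.Recip

/-- **[RECIP-Q]** the reciprocity law for the `p`-torsion of `Br(ℚ)`, unconditional. -/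
theorem recipQ : RecipQStatement :=
  recipQ_of_leaves Fermat.Agent.H76.Cft.auxPrime Fermat.Agent.H94.Recip.fieldMStatement
    Fermat.Agent.H90.RQUnr.fieldMUnram Fermat.Agent.H81.Recip.fieldMTame
    Fermat.Agent.H42.Cft.changeGen Fermat.Agent.H50.splitCyclic
    Fermat.Agent.H17.Recip.baseChange Fermat.Agent.H17.Recip.baseChangeSplit
    Fermat.Agent.H97.Hasse.hasseQ25 Fermat.Agent.H78.CFT.unramCocycleU
    Fermat.Agent.H78.CFT.hasInv_unique Fermat.Agent.H78.CFT.hasInv_period
    Fermat.Agent.H86.CftCyclicNorm.cyclicNorm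

end Fermat.Agent.H25.Recip
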